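import Mathlib
import Fermat.Agent.H68.MW.GTInterfaces

/-!
# P-MW / row MW-GT-HEIGHT: homogeneous identities give a height inequality

`xb_j ^ (M + 1) = ∑ i, G_ji(xa, xb) * xa_i` for all `j`, with `G_ji` homogeneous of degree `M`,
implies `h(xb) ≤ h(xa) + C`.
-/

set_option autoImplicit false

noncomputable section

open MvPolynomial

namespace Fermat.Agent.H79.MW

/-- the auxiliary family `q` of homogeneous polynomials of degree `M` -/
def gtQ {ιA ιB : Type} [DecidableEq ιA] (M : ℕ) (G : ιB → ιA → MvPolynomial (ιA ⊕ ιB) ℚ) :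
    (ιA ⊕ ιB) × ιA → MvPolynomial (ιA ⊕ ιB) ℚ
  | (Sum.inl i', i) => if i = i' then X (Sum.inl i') ^ M else 0
  | (Sum.inr j, i) => G j i

theorem gtQ_isHomogeneous {ιA ιB : Type} [DecidableEq ιA] (M : ℕ)
    (G : ιB → ιA → MvPolynomial (ιA ⊕ ιB) ℚ) (hG : ∀ j i, (G j i).IsHomogeneous M)
    (a : (ιA ⊕ ιB) × ιA) : (gtQ M G a).IsHomogeneous M := by
  rcases a with ⟨i' | j, i⟩
  · simp only [gtQ]
    split_ifs
    · simpa using (isHomogeneous_X ℚ (Sum.inl i' : ιA ⊕ ιB)).pow M
    · exact isHomogeneous_zero _ _ _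
  · exact hG j i

/-- **GT-HEIGHT.** -/
theorem gtHeight : Fermat.Agent.H68.GT.GTHeightStatement := by
  classical
  intro ιA ιB _ _ M G hG
  obtain ⟨C, hC⟩ := Height.logHeight_eval_ge' (K := ℚ) (ι := ιA ⊕ ιB) (ι' := ιA) (M := M)
    (N := 1) (q := gtQ M G) (gtQ_isHomogeneous M G hG)
  refine ⟨-C, fun xa xb h => ?_⟩
  have key := hC (fun i => X (Sum.inl i)) (x := Sum.elim xa xb) (by
    rintro (i' | j)
    · simp only [gtQ, eval_X, Sum.elim_inl]
      rw [Finset.sum_eq_single i']
      · simp [pow_succ]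
      · intro i _ hi
        simp [hi]
      · intro hi
        exact absurd (Finset.mem_univ _) hi
    · simp only [gtQ, eval_X, Sum.elim_inl, Sum.elim_inr]
      exact (h j).symm)
  have e1 : (fun i : ιA => eval (Sum.elim xa xb) (X (Sum.inl i) : MvPolynomial (ιA ⊕ ιB) ℚ))
      = xa := by
    funext i
    simp
  rw [e1] at key
  have e2 : Height.logHeight xb ≤ Height.logHeight (Sum.elim xa xb) := by
    have := Height.logHeight_comp_le (Sum.inr : ιB → ιA ⊕ ιB) (Sum.elim xa xb)
    simpa [Function.comp_def] using this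
  simp only [Nat.cast_one, one_mul] at key
  linarith

end Fermat.Agent.H79.MW
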