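import Mathlib
import Fermat.Agent.H92.MW.CoreInterfaces

/-!
# P-MW / Lemma M: the compound form of a linear system of matrices

For matrices `T j : n × n'` (`j : ι₁`) and `l`, the polynomials
`Φ_s(x, ω) = ∑_u ω_u * det ((∑_j x_j T_j)[u, s])` (`u`, `s` running over the `l`-subsets of the
rows and columns) are bihomogeneous of bidegree `(l, 1)`; by Cauchy-Binet they compute the
maximal minors of `A * (∑_j x_j T_j)` from those of `A`, and they have no nontrivial common zero
as soon as all the matrices `∑_j x_j T_j`, `x ≠ 0`, have trivial left kernel.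
-/

set_option autoImplicit false

noncomputable section

open Module MvPolynomial
open Fermat.Agent.H92.MW

namespace Fermat.Agent.H79.MW

variable {ι₁ : Type} [Fintype ι₁] {n n' : ℕ}

/-- `l`-element subsets. -/
abbrev Sub (n l : ℕ) : Type := {s : Finset (Fin n) // s.card = l}

/-- the increasing enumeration of an `l`-subset -/
abbrev Sub.emb {n l : ℕ} (s : Sub n l) : Fin l → Fin n := s.1.orderEmbOfFin s.2

/-- the matrix `∑_j x_j T_j` over any commutative `ℚ`-algebra -/
def linMat {K : Type*} [CommRing K] [Algebra ℚ K] (T : ι₁ → Matrix (Fin n) (Fin n') ℚ)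
    (x : ι₁ → K) : Matrix (Fin n) (Fin n') K :=
  fun i r => ∑ j, algebraMap ℚ K (T j i r) * x j

/-- the generic matrix `∑_j X_j T_j` -/
def polyMat (l : ℕ) (T : ι₁ → Matrix (Fin n) (Fin n') ℚ) :
    Matrix (Fin n) (Fin n') (MvPolynomial (ι₁ ⊕ Sub n l) ℚ) :=
  fun i r => ∑ j, C (T j i r) * X (Sum.inl j)

/-- the compound form -/
def phi (l : ℕ) (T : ι₁ → Matrix (Fin n) (Fin n') ℚ) (s : Sub n' l) :
    MvPolynomial (ι₁ ⊕ Sub n l) ℚ :=
  ∑ u : Sub n l, X (Sum.inr u) * ((polyMat l T).submatrix u.emb s.emb).det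

theorem aeval_polyMat {K : Type*} [CommRing K] [Algebra ℚ K] (l : ℕ)
    (T : ι₁ → Matrix (Fin n) (Fin n') ℚ) (x : ι₁ → K) (ω : Sub n l → K) (i : Fin n)
    (r : Fin n') :
    aeval (Sum.elim x ω) (polyMat l T i r) = linMat T x i r := by
  simp [polyMat, linMat]

theorem aeval_phi {K : Type*} [CommRing K] [Algebra ℚ K] (l : ℕ)
    (T : ι₁ → Matrix (Fin n) (Fin n') ℚ) (x : ι₁ → K) (ω : Sub n l → K) (s : Sub n' l) :
    aeval (Sum.elim x ω) (phi l T s)
      = ∑ u : Sub n l, ω u * ((linMat T x).submatrix u.emb s.emb).det := by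
  unfold phi
  rw [map_sum]
  refine Finset.sum_congr rfl fun u _ => ?_
  rw [map_mul, aeval_X, Sum.elim_inr]
  congr 1
  rw [AlgHom.map_det]
  congr 1
  ext i r
  simp [aeval_polyMat]

theorem eval_phi (l : ℕ) (T : ι₁ → Matrix (Fin n) (Fin n') ℚ) (x : ι₁ → ℚ) (ω : Sub n l → ℚ)
    (s : Sub n' l) :
    eval (Sum.elim x ω) (phi l T s)
      = ∑ u : Sub n l, ω u * ((linMat T x).submatrix u.emb s.emb).det := by
  have := aeval_phi (K := ℚ) l T x ω s
  rwa [aeval_eq_eval] at this

/-! ### Bihomogeneity -/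

/-- weight of the first group of variables -/
def wOne (ι₁ ι₂ : Type) : ι₁ ⊕ ι₂ → ℕ := Sum.elim (fun _ => 1) (fun _ => 0)

/-- weight of the second group of variables -/
def wTwo (ι₁ ι₂ : Type) : ι₁ ⊕ ι₂ → ℕ := Sum.elim (fun _ => 0) (fun _ => 1)

theorem weight_wOne {ι₂ : Type} [Fintype ι₂] (d : ι₁ ⊕ ι₂ →₀ ℕ) :
    Finsupp.weight (wOne ι₁ ι₂) d = ∑ i : ι₁, d (Sum.inl i) := by
  rw [Finsupp.weight_apply, Finsupp.sum_fintype _ _ (fun i => by simp), Fintype.sum_sum_type]
  simp [wOne]

theorem weight_wTwo {ι₂ : Type} [Fintype ι₂] (d : ι₁ ⊕ ι₂ →₀ ℕ) :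
    Finsupp.weight (wTwo ι₁ ι₂) d = ∑ j : ι₂, d (Sum.inr j) := by
  rw [Finsupp.weight_apply, Finsupp.sum_fintype _ _ (fun i => by simp), Fintype.sum_sum_type]
  simp [wTwo]

theorem isBihom_of_weighted {ι₂ : Type} [Fintype ι₂] {d₁ d₂ : ℕ}
    {p : MvPolynomial (ι₁ ⊕ ι₂) ℚ} (h₁ : IsWeightedHomogeneous (wOne ι₁ ι₂) p d₁)
    (h₂ : IsWeightedHomogeneous (wTwo ι₁ ι₂) p d₂) : IsBihom d₁ d₂ p := by
  intro s hs
  have hc : coeff s p ≠ 0 := mem_support_iff.mp hs
  exact ⟨(weight_wOne s).symm.trans (h₁ hc), (weight_wTwo s).symm.trans (h₂ hc)⟩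

theorem IsWeightedHomogeneous.units_smul {σ : Type*} {w : σ → ℕ} {p : MvPolynomial σ ℚ} {d : ℕ}
    (h : IsWeightedHomogeneous w p d) (ε : ℤˣ) : IsWeightedHomogeneous w (ε • p) d := by
  rcases Int.units_eq_one_or ε with rfl | rfl
  · rwa [one_smul]
  · rw [Units.neg_smul, one_smul]
    exact h.neg

theorem isWeightedHomogeneous_det {σ : Type*} {w : σ → ℕ} {l : ℕ} {d : ℕ}
    (M : Matrix (Fin l) (Fin l) (MvPolynomial σ ℚ))
    (h : ∀ i r, IsWeightedHomogeneous w (M i r) d) :
    IsWeightedHomogeneous w M.det (l * d) := by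
  rw [Matrix.det_apply]
  refine IsWeightedHomogeneous.sum _ _ _ fun σ' _ => ?_
  refine IsWeightedHomogeneous.units_smul ?_ _
  have := IsWeightedHomogeneous.prod (w := w) Finset.univ (fun i => M (σ' i) i) (fun _ => d)
    (fun i _ => h _ _)
  simpa using this

theorem isWeightedHomogeneous_polyMat_one (l : ℕ) (T : ι₁ → Matrix (Fin n) (Fin n') ℚ)
    (i : Fin n) (r : Fin n') :
    IsWeightedHomogeneous (wOne ι₁ (Sub n l)) (polyMat l T i r) 1 := by
  unfold polyMat
  refine IsWeightedHomogeneous.sum _ _ _ fun j _ => ?_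
  exact (isWeightedHomogeneous_X (R := ℚ) (wOne ι₁ (Sub n l)) (Sum.inl j)).C_mul _

theorem isWeightedHomogeneous_polyMat_two (l : ℕ) (T : ι₁ → Matrix (Fin n) (Fin n') ℚ)
    (i : Fin n) (r : Fin n') :
    IsWeightedHomogeneous (wTwo ι₁ (Sub n l)) (polyMat l T i r) 0 := by
  unfold polyMat
  refine IsWeightedHomogeneous.sum _ _ _ fun j _ => ?_
  exact (isWeightedHomogeneous_X (R := ℚ) (wTwo ι₁ (Sub n l)) (Sum.inl j)).C_mul _

/-- **Bihomogeneity** of the compound form. -/
theorem isBihom_phi (l : ℕ) (T : ι₁ → Matrix (Fin n) (Fin n') ℚ) (s : Sub n' l) :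
    IsBihom l 1 (phi l T s) := by
  refine isBihom_of_weighted ?_ ?_
  · unfold phi
    refine IsWeightedHomogeneous.sum _ _ _ fun u _ => ?_
    have h1 := isWeightedHomogeneous_X (R := ℚ) (wOne ι₁ (Sub n l)) (Sum.inr u)
    have h2 := isWeightedHomogeneous_det (w := wOne ι₁ (Sub n l)) (d := 1)
      ((polyMat l T).submatrix u.emb s.emb)
      (fun i r => isWeightedHomogeneous_polyMat_one l T _ _)
    have := h1.mul h2
    simpa [wOne] using this
  · unfold phi
    refine IsWeightedHomogeneous.sum _ _ _ fun u _ => ?_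
    have h1 := isWeightedHomogeneous_X (R := ℚ) (wTwo ι₁ (Sub n l)) (Sum.inr u)
    have h2 := isWeightedHomogeneous_det (w := wTwo ι₁ (Sub n l)) (d := 0)
      ((polyMat l T).submatrix u.emb s.emb)
      (fun i r => isWeightedHomogeneous_polyMat_two l T _ _)
    have := h1.mul h2
    simpa [wTwo] using this

/-! ### No nontrivial zeros -/

theorem exists_right_inverse_of_vecMul_injective {K : Type*} [Field K]
    (M : Matrix (Fin n) (Fin n') K) (h : ∀ v, Matrix.vecMul v M = 0 → v = 0) :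
    ∃ N : Matrix (Fin n') (Fin n) K, M * N = 1 := by
  have hker : LinearMap.ker (Matrix.vecMulLinear M) = ⊥ := by
    rw [LinearMap.ker_eq_bot']
    intro v hv
    exact h v hv
  obtain ⟨g, hg⟩ := LinearMap.exists_leftInverse_of_injective _ hker
  refine ⟨(LinearMap.toMatrix' g).transpose, ?_⟩
  apply Matrix.vecMul_injective
  funext v
  show Matrix.vecMul v (M * (LinearMap.toMatrix' g).transpose) = Matrix.vecMul v 1
  rw [← Matrix.vecMul_vecMul, Matrix.vecMul_transpose, LinearMap.toMatrix'_mulVec,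
    Matrix.vecMul_one]
  exact congrArg (fun φ => φ v) hg

theorem det_one_submatrix {K : Type*} [CommRing K] {l : ℕ} (u s : Sub n l) :
    ((1 : Matrix (Fin n) (Fin n) K).submatrix u.emb s.emb).det = if u = s then 1 else 0 := by
  classical
  by_cases h : u = s
  · subst h
    rw [if_pos rfl, Matrix.submatrix_one _ (u.1.orderEmbOfFin u.2).injective, Matrix.det_one]
  · rw [if_neg h]
    -- some element of `u` is not in `s`
    have hne : u.1 ≠ s.1 := fun h' => h (Subtype.ext h')
    have hex : ∃ i ∈ u.1, i ∉ s.1 := by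
      by_contra hcon
      have hsub : u.1 ⊆ s.1 := by
        intro i hi
        by_contra his
        exact hcon ⟨i, hi, his⟩
      exact hne (Finset.eq_of_subset_of_card_le hsub (by rw [u.2, s.2]))
    obtain ⟨i, hiu, his⟩ := hex
    obtain ⟨a, ha⟩ : ∃ a, u.emb a = i := by
      have : i ∈ Set.range (u.1.orderEmbOfFin u.2) := by
        rw [Finset.range_orderEmbOfFin]
        exact hiu
      exact this
    refine Matrix.det_eq_zero_of_row_eq_zero a fun b => ?_
    rw [Matrix.submatrix_apply, ha, Matrix.one_apply_ne]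
    intro hib
    apply his
    rw [hib]
    exact Finset.orderEmbOfFin_mem s.1 s.2 b

theorem compound_inverse (hCB : CauchyBinetStatement) {K : Type} [Field K]
    (M : Matrix (Fin n) (Fin n') K) (N : Matrix (Fin n') (Fin n) K) (hMN : M * N = 1)
    {l : ℕ} (u s : Sub n l) :
    ∑ u' : Sub n' l, (M.submatrix u.emb u'.emb).det * (N.submatrix u'.emb s.emb).det
      = if u = s then 1 else 0 := by
  have h := hCB K l n' n (M.submatrix u.emb id) N s
  have h1 : M.submatrix u.emb id * N = (1 : Matrix (Fin n) (Fin n) K).submatrix u.emb id := by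
    rw [← hMN]
    ext i j
    simp [Matrix.mul_apply]
  rw [h1] at h
  have h2 : minorVec ((1 : Matrix (Fin n) (Fin n) K).submatrix u.emb id) s
      = ((1 : Matrix (Fin n) (Fin n) K).submatrix u.emb s.emb).det := rfl
  rw [h2, det_one_submatrix] at h
  rw [h]
  rfl

/-- **No nontrivial zeros**: if `∑ x_j T_j` has trivial left kernel, the compound forms do not
vanish simultaneously at `(x, ω)`, `ω ≠ 0`. -/
theorem exists_phi_ne_zero (hCB : CauchyBinetStatement) {K : Type} [Field K] [Algebra ℚ K]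
    (l : ℕ) (T : ι₁ → Matrix (Fin n) (Fin n') ℚ) (x : ι₁ → K) (ω : Sub n l → K)
    (hinj : ∀ v : Fin n → K, Matrix.vecMul v (linMat T x) = 0 → v = 0) (hω : ω ≠ 0) :
    ∃ s : Sub n' l, aeval (Sum.elim x ω) (phi l T s) ≠ 0 := by
  classical
  by_contra hcon0
  have hcon : ∀ s : Sub n' l, aeval (Sum.elim x ω) (phi l T s) = 0 := by
    intro s
    by_contra hs
    exact hcon0 ⟨s, hs⟩
  obtain ⟨N, hN⟩ := exists_right_inverse_of_vecMul_injective (linMat T x) hinj
  apply hω
  funext s
  have h0 : ∀ u' : Sub n' l,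
      ∑ u : Sub n l, ω u * ((linMat T x).submatrix u.emb u'.emb).det = 0 := by
    intro u'
    rw [← aeval_phi]
    exact hcon u'
  calc ω s = ∑ u : Sub n l, ω u * (if u = s then 1 else 0) := by simp
    _ = ∑ u : Sub n l, ω u * ∑ u' : Sub n' l,
          ((linMat T x).submatrix u.emb u'.emb).det * (N.submatrix u'.emb s.emb).det := by
        refine Finset.sum_congr rfl fun u _ => ?_
        rw [compound_inverse hCB _ _ hN]
    _ = ∑ u' : Sub n' l, (∑ u : Sub n l, ω u * ((linMat T x).submatrix u.emb u'.emb).det)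
          * (N.submatrix u'.emb s.emb).det := by
        simp_rw [Finset.mul_sum, Finset.sum_mul]
        rw [Finset.sum_comm]
        refine Finset.sum_congr rfl fun u' _ => Finset.sum_congr rfl fun u _ => ?_
        ring
    _ = 0 := by
        simp_rw [h0, zero_mul]
        exact Finset.sum_const_zero

end Fermat.Agent.H79.MW
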