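import Mathlib
import Fermat.Agent.H92.MW.CoreInterfaces
import Fermat.Agent.H40.MW.Adapters
import Fermat.Agent.H79.MW.CompoundForm

/-!
# P-MW / row MW-LEMMAM: Lemma M

`h(a U) = h(U) + dim(U) h(a) + O(1)` for `0 ≠ a ∈ W k` and `U ⊆ W m`, from `BihomStatement` and
`CauchyBinetStatement`.
-/

set_option autoImplicit false

noncomputable section

open Module TensorProduct
open Fermat.Agent.H92.MW

namespace Fermat.Agent.H79.MW

variable {R : Type} [CommRing R] [Algebra ℚ R] [IsDedekindDomain R] (𝒞 : MWDatum R) (k m : ℕ)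

/-! ### Coordinates of the multiplication maps -/

theorem mulMap_add_left (a a' : 𝒞.W k) :
    mulMap 𝒞 k m (a + a') = mulMap 𝒞 k m a + mulMap 𝒞 k m a' := by
  ext w
  simp [mulMap, mul_add]

theorem mulMap_smul_left (c : ℚ) (a : 𝒞.W k) :
    mulMap 𝒞 k m (c • a) = c • mulMap 𝒞 k m a := by
  ext w
  simp [mulMap]

/-- multiplication as a bilinear map -/
def mulLin : 𝒞.W k →ₗ[ℚ] 𝒞.W m →ₗ[ℚ] 𝒞.W (m + k) where
  toFun := mulMap 𝒞 k m
  map_add' := mulMap_add_left 𝒞 k m
  map_smul' := mulMap_smul_left 𝒞 k m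

@[simp] theorem mulLin_apply (a : 𝒞.W k) : mulLin 𝒞 k m a = mulMap 𝒞 k m a := rfl

/-- the structure matrices: multiplication by the `j`-th basis vector of `W k` -/
def structMat (j : Fin (finrank ℚ (𝒞.W k))) :
    Matrix (Fin (finrank ℚ (𝒞.W m))) (Fin (finrank ℚ (𝒞.W (m + k)))) ℚ :=
  fun i r => (Module.finBasis ℚ (𝒞.W (m + k))).repr
    (mulMap 𝒞 k m (Module.finBasis ℚ (𝒞.W k) j) (Module.finBasis ℚ (𝒞.W m) i)) r

theorem repr_mulMap (a : 𝒞.W k) (w : 𝒞.W m) (r : Fin (finrank ℚ (𝒞.W (m + k)))) :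
    (Module.finBasis ℚ (𝒞.W (m + k))).repr (mulMap 𝒞 k m a w) r
      = Matrix.vecMul (fun i => (Module.finBasis ℚ (𝒞.W m)).repr w i)
          (linMat (structMat 𝒞 k m) (coordVec 𝒞 k a)) r := by
  have ha := (Module.finBasis ℚ (𝒞.W k)).sum_repr a
  have hw := (Module.finBasis ℚ (𝒞.W m)).sum_repr w
  have h1 : mulMap 𝒞 k m a w = ∑ i, ∑ j,
      ((Module.finBasis ℚ (𝒞.W m)).repr w i * (Module.finBasis ℚ (𝒞.W k)).repr a j) •
        mulMap 𝒞 k m (Module.finBasis ℚ (𝒞.W k) j) (Module.finBasis ℚ (𝒞.W m) i) := by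
    conv_lhs => rw [← ha, ← hw]
    rw [← mulLin_apply]
    simp only [map_sum, map_smul, LinearMap.sum_apply, LinearMap.smul_apply, Finset.smul_sum,
      smul_smul]
    rfl
  rw [h1]
  simp only [map_sum, map_smul, Finsupp.coe_finsetSum, Finsupp.coe_smul, Finset.sum_apply,
    Pi.smul_apply, smul_eq_mul]
  simp only [Matrix.vecMul, dotProduct, linMat, structMat, coordVec, Finset.mul_sum]
  refine Finset.sum_congr rfl fun i _ => Finset.sum_congr rfl fun j _ => ?_
  simp only [eq_ratCast, Rat.cast_id]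
  ring

/-! ### Heights of images of subspaces -/

section image

variable {E F : Type*} [AddCommGroup E] [Module ℚ E] [Module.Finite ℚ E]
  [AddCommGroup F] [Module ℚ F] [Module.Finite ℚ F]

/-- the matrix of the images under `f` of the standard basis of `U`, in the standard basis of
the target -/
def imageMatrix (U : Submodule ℚ E) (f : E →ₗ[ℚ] F) :
    Matrix (Fin (finrank ℚ U)) (Fin (finrank ℚ F)) ℚ :=
  fun i j => (Module.finBasis ℚ F).repr (f ((Module.finBasis ℚ U i : U) : E)) j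

theorem imageMatrix_row (U : Submodule ℚ E) (f : E →ₗ[ℚ] F) :
    (imageMatrix U f).row = ((Module.finBasis ℚ F).equivFun.toLinearMap ∘ₗ f ∘ₗ U.subtype) ∘
      (Module.finBasis ℚ U) := by
  funext i
  rfl

theorem linearIndependent_imageMatrix (U : Submodule ℚ E) (f : E →ₗ[ℚ] F)
    (hf : Function.Injective f) : LinearIndependent ℚ (imageMatrix U f).row := by
  rw [imageMatrix_row]
  refine (Module.finBasis ℚ U).linearIndependent.map' _ ?_
  rw [LinearMap.ker_eq_bot]
  exact (Module.finBasis ℚ F).equivFun.injective.comp (hf.comp U.subtype_injective)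

theorem span_imageMatrix (U : Submodule ℚ E) (f : E →ₗ[ℚ] F) :
    Submodule.span ℚ (Set.range (imageMatrix U f).row)
      = (U.map f).map (Module.finBasis ℚ F).equivFun.toLinearMap := by
  rw [imageMatrix_row, Set.range_comp, Submodule.span_image, (Module.finBasis ℚ U).span_eq,
    Submodule.map_comp, Submodule.map_comp, Submodule.map_subtype_top]

theorem coordMatrix_eq_imageMatrix (V : Submodule ℚ F) :
    coordMatrix V = imageMatrix V LinearMap.id := rfl

open Fermat.Agent.H40.MW in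
/-- The height of the image of a subspace under an injective linear map. -/
theorem subspaceHeight_map (U : Submodule ℚ E) (f : E →ₗ[ℚ] F) (hf : Function.Injective f) :
    subspaceHeight (U.map f) = Height.logHeight (minorVec (imageMatrix U f)) := by
  unfold subspaceHeight
  rw [logHeight_minorVec, logHeight_minorVec, Height.logHeight, Height.logHeight]
  congr 1
  rw [coordMatrix_eq_imageMatrix]
  refine mulHeight_plucker_eq_of_span_eq _ _ (linearIndependent_imageMatrix U f hf)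
    (linearIndependent_imageMatrix _ _ Function.injective_id) ?_
  rw [span_imageMatrix, span_imageMatrix, Submodule.map_id]

end image

/-! ### The image of a subspace under multiplication -/

theorem mulMap_injective (a : 𝒞.W k) (ha : a ≠ 0) : Function.Injective (mulMap 𝒞 k m a) := by
  rw [← LinearMap.ker_eq_bot, LinearMap.ker_eq_bot']
  intro w hw
  have h1 : (w : R) * (a : R) = 0 := congrArg Subtype.val hw
  have ha' : (a : R) ≠ 0 := fun h => ha (Subtype.ext h)
  rcases mul_eq_zero.mp h1 with h | h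
  · exact Subtype.ext h
  · exact absurd h ha'

theorem imageMatrix_mulMap (a : 𝒞.W k) (U : Submodule ℚ (𝒞.W m)) :
    imageMatrix U (mulMap 𝒞 k m a)
      = coordMatrix U * linMat (structMat 𝒞 k m) (coordVec 𝒞 k a) := by
  ext i r
  rw [imageMatrix, repr_mulMap, Matrix.mul_apply]
  rfl

/-! ### Injectivity over `ℚ̄` -/

section tensor

variable {K : Type} [Field K] [Algebra ℚ K]

/-- the element `∑ v_i ⊗ b_i` of `K ⊗ R` attached to a coordinate vector over `K` -/
def tvec (j : ℕ) (v : Fin (finrank ℚ (𝒞.W j)) → K) : K ⊗[ℚ] R :=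
  ∑ i, v i ⊗ₜ[ℚ] ((Module.finBasis ℚ (𝒞.W j) i : 𝒞.W j) : R)

/-- coordinate functionals on `R` dual to the basis of `W j` -/
theorem exists_dual (j : ℕ) (i : Fin (finrank ℚ (𝒞.W j))) :
    ∃ φ : R →ₗ[ℚ] ℚ, ∀ i', φ ((Module.finBasis ℚ (𝒞.W j) i' : 𝒞.W j) : R)
      = if i' = i then 1 else 0 := by
  obtain ⟨π, hπ⟩ := LinearMap.exists_leftInverse_of_injective (𝒞.W j).subtype
    (Submodule.ker_subtype _)
  refine ⟨(Module.finBasis ℚ (𝒞.W j)).coord i ∘ₗ π, fun i' => ?_⟩
  have h1 : π ((Module.finBasis ℚ (𝒞.W j) i' : 𝒞.W j) : R) = Module.finBasis ℚ (𝒞.W j) i' :=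
    congrArg (fun f => f (Module.finBasis ℚ (𝒞.W j) i')) hπ
  rw [LinearMap.comp_apply, h1, Module.Basis.coord_apply, Module.Basis.repr_self,
    Finsupp.single_apply]

theorem tvec_eq_zero (j : ℕ) (v : Fin (finrank ℚ (𝒞.W j)) → K) (h : tvec 𝒞 j v = 0) : v = 0 := by
  funext i
  obtain ⟨φ, hφ⟩ := exists_dual 𝒞 j i
  have h1 := congrArg ((TensorProduct.rid ℚ K).toLinearMap ∘ₗ (LinearMap.lTensor K φ)) h
  simp only [tvec, map_sum, LinearMap.comp_apply, LinearMap.lTensor_tmul,
    LinearEquiv.coe_coe, TensorProduct.rid_tmul, hφ, map_zero] at h1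
  simpa using h1

theorem tvec_mul (v : Fin (finrank ℚ (𝒞.W m)) → K) (x : Fin (finrank ℚ (𝒞.W k)) → K) :
    tvec 𝒞 m v * tvec 𝒞 k x
      = tvec 𝒞 (m + k) (Matrix.vecMul v (linMat (structMat 𝒞 k m) x)) := by
  have hprod : ∀ (i : Fin (finrank ℚ (𝒞.W m))) (j : Fin (finrank ℚ (𝒞.W k))),
      ((Module.finBasis ℚ (𝒞.W m) i : 𝒞.W m) : R) * ((Module.finBasis ℚ (𝒞.W k) j : 𝒞.W k) : R)
        = ∑ r, structMat 𝒞 k m j i r •
            ((Module.finBasis ℚ (𝒞.W (m + k)) r : 𝒞.W (m + k)) : R) := by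
    intro i j
    have h := (Module.finBasis ℚ (𝒞.W (m + k))).sum_repr
      (mulMap 𝒞 k m (Module.finBasis ℚ (𝒞.W k) j) (Module.finBasis ℚ (𝒞.W m) i))
    have h2 := congrArg (Subtype.val) h
    simp only [Submodule.coe_sum, Submodule.coe_smul] at h2
    exact h2.symm
  unfold tvec
  rw [Finset.sum_mul_sum]
  simp only [Algebra.TensorProduct.tmul_mul_tmul, hprod, TensorProduct.tmul_sum,
    TensorProduct.tmul_smul, TensorProduct.smul_tmul']
  simp only [Matrix.vecMul, dotProduct, linMat, Finset.mul_sum, TensorProduct.sum_tmul]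
  symm
  rw [Finset.sum_comm]
  refine Finset.sum_congr rfl fun i _ => ?_
  rw [Finset.sum_comm]
  refine Finset.sum_congr rfl fun j _ => Finset.sum_congr rfl fun r _ => ?_
  rw [Algebra.smul_def]
  congr 1
  ring

/-- **Injectivity over `K`**: `∑ x_j T_j` has trivial left kernel for `x ≠ 0`, as soon as
`K ⊗ R` is a domain. -/
theorem linMat_structMat_injective [IsDomain (K ⊗[ℚ] R)]
    (x : Fin (finrank ℚ (𝒞.W k)) → K) (hx : x ≠ 0) (v : Fin (finrank ℚ (𝒞.W m)) → K)
    (hv : Matrix.vecMul v (linMat (structMat 𝒞 k m) x) = 0) : v = 0 := by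
  have h := tvec_mul 𝒞 k m v x
  rw [hv] at h
  have h0 : tvec 𝒞 (m + k) (0 : Fin (finrank ℚ (𝒞.W (m + k))) → K) = 0 := by
    simp [tvec]
  rw [h0] at h
  rcases mul_eq_zero.mp h with h1 | h1
  · exact tvec_eq_zero 𝒞 m v h1
  · exact absurd (tvec_eq_zero 𝒞 k x h1) hx

end tensor

/-! ### Lemma M -/

theorem coordVec_ne_zero (a : 𝒞.W k) (ha : a ≠ 0) : coordVec 𝒞 k a ≠ 0 := by
  intro h
  apply ha
  apply (Module.finBasis ℚ (𝒞.W k)).equivFun.injective
  rw [map_zero]
  exact h

open Fermat.Agent.H40.MW in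
theorem minorVec_coordMatrix_ne_zero {E : Type*} [AddCommGroup E] [Module ℚ E]
    [Module.Finite ℚ E] (U : Submodule ℚ E) : minorVec (coordMatrix U) ≠ 0 := by
  intro h
  have hli : LinearIndependent ℚ (coordMatrix U).row := by
    rw [coordMatrix_eq_imageMatrix]
    exact linearIndependent_imageMatrix U LinearMap.id Function.injective_id
  apply plucker_ne_zero _ hli
  funext e
  rcases plucker_eq_zero_or_minorVec (coordMatrix U) e with h0 | ⟨s, h1 | h1⟩
  · exact h0
  · rw [h1, h]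
    rfl
  · rw [h1, h]
    simp

/-- **Lemma M** for a fixed dimension `l` of the subspace. -/
theorem lemmaM_aux (hB : BihomStatement) (hCB : CauchyBinetStatement) (l : ℕ) :
    ∃ C : ℝ, ∀ (a : 𝒞.W k) (U : Submodule ℚ (𝒞.W m)), a ≠ 0 → finrank ℚ U = l →
      |subspaceHeight (U.map (mulMap 𝒞 k m a)) - subspaceHeight U
        - (finrank ℚ U) * Height.logHeight (coordVec 𝒞 k a)| ≤ C := by
  obtain ⟨C, hC⟩ := hB (Fin (finrank ℚ (𝒞.W k))) (Sub (finrank ℚ (𝒞.W m)) l)
    (Sub (finrank ℚ (𝒞.W (m + k))) l) l 1 (phi l (structMat 𝒞 k m))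
    (isBihom_phi l _) (by
      intro x y hx hy
      have : IsDomain (QQbar ⊗[ℚ] R) := 𝒞.bar_dedekind.toIsDomain
      exact exists_phi_ne_zero hCB l _ x y (linMat_structMat_injective 𝒞 k m x hx) hy)
  refine ⟨C, fun a U ha hl => ?_⟩
  subst hl
  have h := hC (coordVec 𝒞 k a) (minorVec (coordMatrix U)) (coordVec_ne_zero 𝒞 k a ha)
    (minorVec_coordMatrix_ne_zero U)
  have e1 : (fun s => MvPolynomial.eval
      (Sum.elim (coordVec 𝒞 k a) (minorVec (coordMatrix U)))
      (phi (finrank ℚ U) (structMat 𝒞 k m) s))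
        = minorVec (imageMatrix U (mulMap 𝒞 k m a)) := by
    funext s
    rw [eval_phi, imageMatrix_mulMap, hCB ℚ _ _ _ (coordMatrix U) _ s]
  rw [e1, ← subspaceHeight_map U _ (mulMap_injective 𝒞 k m a ha)] at h
  have e2 : subspaceHeight U = Height.logHeight (minorVec (coordMatrix U)) := rfl
  rw [e2]
  have e3 : subspaceHeight (U.map (mulMap 𝒞 k m a))
      - Height.logHeight (minorVec (coordMatrix U))
      - (finrank ℚ U) * Height.logHeight (coordVec 𝒞 k a)
      = subspaceHeight (U.map (mulMap 𝒞 k m a))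
        - (finrank ℚ U : ℕ) * Height.logHeight (coordVec 𝒞 k a)
        - ((1 : ℕ) : ℝ) * Height.logHeight (minorVec (coordMatrix U)) := by
    push_cast
    ring
  rw [e3]
  exact h

/-- **Lemma M** (row MW-LEMMAM). -/
theorem lemmaM (𝒞 : MWDatum R) (hB : BihomStatement) (hCB : CauchyBinetStatement) :
    LemmaMStatement 𝒞 := by
  intro k m
  choose Cf hCf using lemmaM_aux 𝒞 k m hB hCB
  refine ⟨∑ l ∈ Finset.range (finrank ℚ (𝒞.W m) + 1), |Cf l|, fun a U ha => ?_⟩
  have hl : finrank ℚ U ≤ finrank ℚ (𝒞.W m) := Submodule.finrank_le U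
  refine (hCf _ a U ha rfl).trans ((le_abs_self _).trans ?_)
  exact Finset.single_le_sum (f := fun l => |Cf l|) (fun i _ => abs_nonneg _)
    (Finset.mem_range.mpr (Nat.lt_succ_of_le hl))

end Fermat.Agent.H79.MW
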